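/-
Project MW (S17), leaf [VDMC], part (d1) (helper18): THE SUM OVER ALL PLACES of helper11's local
inequality `mw_vdmc_local`.  For a number field `K' ≤ Q̄` containing all the data, the product
formula for the jet determinant `D_m ≠ 0` and `[ABS]` turn the local inequalities into
`∑_k (∑_{l<k, P_l ≠ P_k} h_Δ(P_k,P_l) + h_𝔅(P_k)) ≤ ∑_k (h_y(P_k) + j_k h_𝔊(P_k)) + m · const`.
Prefix `mw_vd2_`.
-/
import Fermat.Agent.MW.Global.VDMC.Local
import Fermat.Agent.MW.Global.GKL.Global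
import Fermat.Agent.MW.Global.GKL.Bound

set_option autoImplicit false
set_option linter.unusedSectionVars false

noncomputable section

namespace Fermat.Agent.MW

open AlgebraicCurve ModularCurve Fermat.Agent.S24 Fermat.Agent.JT3 Fermat.Agent.FF
open Height AdmissibleAbsValues NumberField
open scoped Classical

variable {N : ℕ} [NeZero N]

variable (K' : IntermediateField ℚ mw_K) [NumberField ↥K']

theorem mw_vd2_wedge_mem {r : ℕ} {u v : Fin (r + 1) → mw_K} (hu : ∀ i, u i ∈ K')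
    (hv : ∀ i, v i ∈ K') (p : Fin (r + 1) × Fin (r + 1)) : mw_wedge u v p ∈ K' := by
  rw [mw_wedge]
  exact K'.sub_mem (K'.mul_mem (hu _) (hv _)) (K'.mul_mem (hu _) (hv _))

/-- the global sum of `log δ_w(u, v)` -/
theorem mw_vd2_S_delta (hABS : mw_SeamABS) {r : ℕ} {u v : Fin (r + 1) → mw_K}
    (hu : ∀ i, u i ∈ K') (hv : ∀ i, v i ∈ K') (hu0 : u ≠ 0) (hv0 : v ≠ 0)
    (hw : mw_wedge u v ≠ 0) :
    mw_gkl_Fin (fun w : AbsoluteValue ↥K' ℝ => Real.log (mw_delta K' w u v)) ∧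
      mw_gkl_S (fun w : AbsoluteValue ↥K' ℝ => Real.log (mw_delta K' w u v))
        = (Module.finrank ℚ ↥K' : ℝ) * (mw_ht (mw_wedge u v) - mw_ht u - mw_ht v) :=
  mw_gkl_S_ratio K' hABS (mw_vd2_wedge_mem K' hu hv) hu hv hw hu0 hv0

/-- the global sum of `log κ_w` -/
theorem mw_vd2_S_kappa (hABS : mw_SeamABS) {r : ℕ} {τ u : Fin (r + 1) → mw_K}
    (hτ : ∀ i, τ i ∈ K') (hu : ∀ i, u i ∈ K') (hu0 : u ≠ 0) (hw : mw_wedge τ u ≠ 0) :
    mw_gkl_Fin (fun w : AbsoluteValue ↥K' ℝ =>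
        Real.log (mw_wnorm K' w (mw_wedge τ u) / mw_wnorm K' w u ^ 2)) ∧
      mw_gkl_S (fun w : AbsoluteValue ↥K' ℝ =>
        Real.log (mw_wnorm K' w (mw_wedge τ u) / mw_wnorm K' w u ^ 2))
        = (Module.finrank ℚ ↥K' : ℝ) * (mw_ht (mw_wedge τ u) - 2 * mw_ht u) := by
  obtain ⟨f1, s1⟩ := mw_gkl_S_ratio K' hABS (mw_vd2_wedge_mem K' hτ hu) hu hu hw hu0 hu0
  have e : (fun w : AbsoluteValue ↥K' ℝ =>
        Real.log (mw_wnorm K' w (mw_wedge τ u) / mw_wnorm K' w u ^ 2))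
      = fun w => Real.log (mw_wnorm K' w (mw_wedge τ u) /
          (mw_wnorm K' w u * mw_wnorm K' w u)) := by
    funext w
    rw [sq]
  rw [e]
  refine ⟨f1, ?_⟩
  rw [s1]
  ring

section Sum

variable {r s : ℕ} {x : Fin (r + 1) → mw_F N} {y : Fin (s + 1) → mw_F N} {Pinf : mw_X N} {a : ℕ}
  {𝔅 : mw_Div N} {m : ℕ} {vb : Fin m → mw_F N} {Mx : Fin m → Fin (s + 1) → mw_K}
  {pts : Fin m → mw_X N} {π : mw_X N → mw_F N}

/-- **the global sum of the local term `T_w(k)`** -/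
theorem mw_vd2_S_T (hABS : mw_SeamABS) (hx0 : ∃ b, x b ≠ 0)
    (hxP : ∀ k b, mw_vec x (pts k) b ∈ K') (hyP : ∀ k b, mw_vec y (pts k) b ∈ K')
    (htanK : ∀ k, 1 ≤ mw_vdmc_jn pts k → ∀ b, mw_tanAt N x (pts k) (π (pts k)) b ∈ K')
    (hBK : ∀ z ∈ 𝔅.support, ∀ b, mw_vec x z b ∈ K') (hpB : ∀ k, 𝔅 (pts k) = 0)
    (hsep : ∀ P Q : mw_X N, P ≠ Q → mw_wedge (mw_vec x P) (mw_vec x Q) ≠ 0)
    (htan : ∀ k, 1 ≤ mw_vdmc_jn pts k →
      mw_wedge (mw_tanAt N x (pts k) (π (pts k))) (mw_vec x (pts k)) ≠ 0) (k : Fin m) :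
    mw_gkl_Fin (fun w : AbsoluteValue ↥K' ℝ => mw_vdmc_T x y 𝔅 pts π K' w k) ∧
      mw_gkl_S (fun w : AbsoluteValue ↥K' ℝ => mw_vdmc_T x y 𝔅 pts π K' w k)
        = (Module.finrank ℚ ↥K' : ℝ) *
          (mw_ht (mw_vec y (pts k))
            + (mw_vdmc_jn pts k : ℝ) * mw_hGauss N x (pts k) (π (pts k))
            - (∑ l : Fin m, if l.val < k.val ∧ pts l ≠ pts k then
                mw_hD x (pts k) (pts l) else 0)
            - mw_hDiv N x 𝔅 (pts k)) := by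
  set d : ℝ := (Module.finrank ℚ ↥K' : ℝ) with hd
  have hvx : ∀ z : mw_X N, mw_vec x z ≠ 0 := fun z => mw_v_vec_ne_zero x hx0 z
  -- (1)
  obtain ⟨f1, s1⟩ := mw_gkl_S_wnorm K' hABS (mw_vec y (pts k)) (hyP k)
  -- (2)
  have h2 : mw_gkl_Fin (fun w : AbsoluteValue ↥K' ℝ =>
        (mw_vdmc_jn pts k : ℝ) * Real.log (mw_kappa N K' w x (pts k) (π (pts k)))) ∧
      mw_gkl_S (fun w : AbsoluteValue ↥K' ℝ =>
        (mw_vdmc_jn pts k : ℝ) * Real.log (mw_kappa N K' w x (pts k) (π (pts k))))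
        = d * ((mw_vdmc_jn pts k : ℝ) * mw_hGauss N x (pts k) (π (pts k))) := by
    by_cases hj : 1 ≤ mw_vdmc_jn pts k
    · obtain ⟨f, e⟩ := mw_vd2_S_kappa K' hABS (htanK k hj) (hxP k) (hvx _) (htan k hj)
      refine ⟨mw_gkl_fin_smul _ f, ?_⟩
      rw [mw_gkl_S_smul]
      have : mw_gkl_S (fun w : AbsoluteValue ↥K' ℝ =>
          Real.log (mw_kappa N K' w x (pts k) (π (pts k))))
          = d * (mw_ht (mw_wedge (mw_tanAt N x (pts k) (π (pts k))) (mw_vec x (pts k)))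
              - 2 * mw_ht (mw_vec x (pts k))) := e
      rw [this, mw_hGauss]
      ring
    · have hj0 : mw_vdmc_jn pts k = 0 := by omega
      have e : (fun w : AbsoluteValue ↥K' ℝ =>
          (mw_vdmc_jn pts k : ℝ) * Real.log (mw_kappa N K' w x (pts k) (π (pts k))))
          = fun _ => (0 : ℝ) := by
        funext w
        rw [hj0, Nat.cast_zero, zero_mul]
      rw [e, hj0, Nat.cast_zero, zero_mul, mul_zero]
      exact ⟨mw_gkl_fin_zero, mw_gkl_S_zero⟩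
  obtain ⟨f2, s2⟩ := h2
  -- (3)
  have h3t : ∀ l : Fin m, mw_gkl_Fin (fun w : AbsoluteValue ↥K' ℝ =>
        if l.val < k.val ∧ pts l ≠ pts k then
          Real.log (mw_delta K' w (mw_vec x (pts k)) (mw_vec x (pts l))) else 0) ∧
      mw_gkl_S (fun w : AbsoluteValue ↥K' ℝ =>
        if l.val < k.val ∧ pts l ≠ pts k then
          Real.log (mw_delta K' w (mw_vec x (pts k)) (mw_vec x (pts l))) else 0)
        = d * -(if l.val < k.val ∧ pts l ≠ pts k then mw_hD x (pts k) (pts l) else 0) := by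
    intro l
    by_cases hl : l.val < k.val ∧ pts l ≠ pts k
    · simp only [if_pos hl]
      obtain ⟨f, e⟩ := mw_vd2_S_delta K' hABS (hxP k) (hxP l) (hvx _) (hvx _)
        (hsep (pts k) (pts l) (fun h => hl.2 h.symm))
      refine ⟨f, ?_⟩
      rw [e, mw_hD]
      ring
    · simp only [if_neg hl]
      rw [neg_zero, mul_zero]
      exact ⟨mw_gkl_fin_zero, mw_gkl_S_zero⟩
  have f3 := mw_gkl_fin_sum (K := ↥K') (Finset.univ : Finset (Fin m)) fun l _ => (h3t l).1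
  have s3 := mw_gkl_S_sum (K := ↥K') (Finset.univ : Finset (Fin m)) fun l _ => (h3t l).1
  rw [Finset.sum_congr rfl fun l _ => (h3t l).2] at s3
  -- (4)
  have h4t : ∀ z ∈ 𝔅.support, mw_gkl_Fin (fun w : AbsoluteValue ↥K' ℝ =>
        (𝔅 z : ℝ) * Real.log (mw_delta K' w (mw_vec x (pts k)) (mw_vec x z))) ∧
      mw_gkl_S (fun w : AbsoluteValue ↥K' ℝ =>
        (𝔅 z : ℝ) * Real.log (mw_delta K' w (mw_vec x (pts k)) (mw_vec x z)))
        = d * -((𝔅 z : ℝ) * mw_hD x (pts k) z) := by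
    intro z hz
    have hne : pts k ≠ z := by
      intro h
      rw [Finsupp.mem_support_iff, ← h, hpB k] at hz
      exact hz rfl
    obtain ⟨f, e⟩ := mw_vd2_S_delta K' hABS (hxP k) (hBK z hz) (hvx _) (hvx _)
      (hsep (pts k) z hne)
    refine ⟨mw_gkl_fin_smul _ f, ?_⟩
    rw [mw_gkl_S_smul, e, mw_hD]
    ring
  have f4 := mw_gkl_fin_sum (K := ↥K') 𝔅.support fun z hz => (h4t z hz).1
  have s4 := mw_gkl_S_sum (K := ↥K') 𝔅.support fun z hz => (h4t z hz).1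
  rw [Finset.sum_congr rfl fun z hz => (h4t z hz).2] at s4
  -- assembly
  have eT : (fun w : AbsoluteValue ↥K' ℝ => mw_vdmc_T x y 𝔅 pts π K' w k)
      = fun w => ((Real.log (mw_wnorm K' w (mw_vec y (pts k)))
          + (mw_vdmc_jn pts k : ℝ) * Real.log (mw_kappa N K' w x (pts k) (π (pts k))))
          + ∑ l : Fin m, (if l.val < k.val ∧ pts l ≠ pts k then
              Real.log (mw_delta K' w (mw_vec x (pts k)) (mw_vec x (pts l))) else 0))
          + ∑ z ∈ 𝔅.support,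
              (𝔅 z : ℝ) * Real.log (mw_delta K' w (mw_vec x (pts k)) (mw_vec x z)) := by
    funext w
    rfl
  rw [eT]
  refine ⟨mw_gkl_fin_add (mw_gkl_fin_add (mw_gkl_fin_add f1 f2) f3) f4, ?_⟩
  rw [mw_gkl_S_add (mw_gkl_fin_add (mw_gkl_fin_add f1 f2) f3) f4,
    mw_gkl_S_add (mw_gkl_fin_add f1 f2) f3, mw_gkl_S_add f1 f2, s1, s2, s3, s4,
    ← Finset.mul_sum, ← Finset.mul_sum, Finset.sum_neg_distrib, Finset.sum_neg_distrib]
  have : mw_hDiv N x 𝔅 (pts k) = ∑ z ∈ 𝔅.support, (𝔅 z : ℝ) * mw_hD x (pts k) z := rfl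
  rw [this]
  ring

/-- **the global inequality in sequence form**: the sum over all places of `mw_vdmc_local` -/
theorem mw_vd2_global_sum (hABS : mw_SeamABS) (hx0 : ∃ b, x b ≠ 0)
    (G : mw_vdmc_Geom y Pinf a 𝔅 vb Mx pts π) (R : mw_vdmc_Rat x y vb Mx pts π K')
    (hBK : ∀ z ∈ 𝔅.support, ∀ b, mw_vec x z b ∈ K')
    {γ : ℝ} {cp : ℕ → ℝ} (hγ : 0 ≤ γ) (hcp : ∀ p, 0 ≤ cp p) (hfin : {p | cp p ≠ 0}.Finite)
    (hKL : ∀ (w : AbsoluteValue ↥K' ℝ) (bnd : ℝ), mw_IsBound K' w γ cp bnd →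
      mw_vdmc_KLAt x y K' w bnd)
    (hm : 1 ≤ m) (hD : mw_vdmc_D (mw_vdmc_J y vb pts π) m le_rfl id ≠ 0)
    (hsep : ∀ P Q : mw_X N, P ≠ Q → mw_wedge (mw_vec x P) (mw_vec x Q) ≠ 0)
    (htan : ∀ k, 1 ≤ mw_vdmc_jn pts k →
      mw_wedge (mw_tanAt N x (pts k) (π (pts k))) (mw_vec x (pts k)) ≠ 0) :
    ∑ k : Fin m, ((∑ l : Fin m, if l.val < k.val ∧ pts l ≠ pts k then
          mw_hD x (pts k) (pts l) else 0) + mw_hDiv N x 𝔅 (pts k))
      ≤ ∑ k : Fin m, (mw_ht (mw_vec y (pts k))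
            + (mw_vdmc_jn pts k : ℝ) * mw_hGauss N x (pts k) (π (pts k)))
        + (m : ℝ) * (mw_ht (fun p : Fin m × Fin (s + 1) => Mx p.1 p.2)
            + (γ + ∑ p ∈ hfin.toFinset, cp p * Real.log p)
            + (Real.log m + a * Real.log 2)) := by
  have hd := mw_gkl_finrank_pos K'
  set d : ℝ := (Module.finrank ℚ ↥K' : ℝ) with hd_def
  have hmpos : (0 : ℝ) < (m : ℝ) := by exact_mod_cast hm
  set D := mw_vdmc_D (mw_vdmc_J y vb pts π) m le_rfl id with hDdef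
  have hDK : D ∈ K' := mw_vdmc_D_mem _ R.hJ _ _ _
  obtain ⟨fD, sD⟩ := mw_gkl_S_wabs K' hDK
  set BM : Fin m × Fin (s + 1) → mw_K := fun p => Mx p.1 p.2 with hBM
  obtain ⟨fM, sM⟩ := mw_gkl_S_wnorm K' hABS BM (fun p => R.hMx p.1 p.2)
  have hT := fun k => mw_vd2_S_T K' hABS hx0 R.hxP R.hyP R.htan hBK G.hpB hsep htan k
  -- the function to be summed
  set Ψ : AbsoluteValue ↥K' ℝ → ℝ := fun w => Real.log (mw_wabs K' w D)
    - ∑ k : Fin m, (mw_vdmc_T x y 𝔅 pts π K' w k + Real.log (mw_wnorm K' w BM)) with hΨ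
  have fsum : mw_gkl_Fin (fun w : AbsoluteValue ↥K' ℝ =>
      ∑ k : Fin m, (mw_vdmc_T x y 𝔅 pts π K' w k + Real.log (mw_wnorm K' w BM))) :=
    mw_gkl_fin_sum (K := ↥K') Finset.univ fun k _ => mw_gkl_fin_add (hT k).1 fM
  have fΨ : mw_gkl_Fin Ψ := mw_gkl_fin_sub fD fsum
  set P1 : ℝ := ∑ k : Fin m, (mw_ht (mw_vec y (pts k))
      + (mw_vdmc_jn pts k : ℝ) * mw_hGauss N x (pts k) (π (pts k))) with hP1
  set P2 : ℝ := ∑ k : Fin m, ((∑ l : Fin m, if l.val < k.val ∧ pts l ≠ pts k then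
      mw_hD x (pts k) (pts l) else 0) + mw_hDiv N x 𝔅 (pts k)) with hP2
  have sΨ : mw_gkl_S Ψ = -(d * (P1 - P2 + (m : ℝ) * mw_ht BM)) := by
    rw [hΨ, mw_gkl_S_sub fD fsum, sD,
      mw_gkl_S_sum (K := ↥K') Finset.univ fun k _ => mw_gkl_fin_add (hT k).1 fM,
      Finset.sum_congr rfl fun k _ => mw_gkl_S_add (hT k).1 fM,
      Finset.sum_congr rfl fun k _ => by rw [(hT k).2, sM]]
    rw [hP1, hP2]
    simp only [Finset.sum_add_distrib, Finset.sum_sub_distrib, ← Finset.mul_sum,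
      Finset.sum_const, Finset.card_univ, Fintype.card_fin, nsmul_eq_mul]
    ring
  -- the local bound
  have hloc : ∀ (w : AbsoluteValue ↥K' ℝ) (bnd b₂ : ℝ), mw_IsBound K' w γ cp bnd →
      mw_IsBound K' w (Real.log m + a * Real.log 2) (fun _ => 0) b₂ →
      Ψ w ≤ (m : ℝ) * (bnd + b₂) := by
    intro w bnd b₂ hb hb₂
    obtain ⟨C₁, C₂, h1, h2, hC₁, hC₂, hle⟩ := mw_vdmc_consts K' w m r a hm hb₂
    have hl := mw_vdmc_local hx0 G R (hKL w bnd hb) h1 h2 hC₁ hC₂ hD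
    have e : ∑ k : Fin m, (mw_vdmc_T x y 𝔅 pts π K' w k + Real.log (mw_wnorm K' w BM) + bnd
          + (Real.log C₁ + a * Real.log C₂))
        = ∑ k : Fin m, (mw_vdmc_T x y 𝔅 pts π K' w k + Real.log (mw_wnorm K' w BM))
          + (m : ℝ) * (bnd + (Real.log C₁ + a * Real.log C₂)) := by
      simp only [Finset.sum_add_distrib, Finset.sum_const, Finset.card_univ, Fintype.card_fin,
        nsmul_eq_mul]
      ring
    rw [e] at hl
    have h3 : (m : ℝ) * (bnd + (Real.log C₁ + a * Real.log C₂)) ≤ (m : ℝ) * (bnd + b₂) :=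
      mul_le_mul_of_nonneg_left (by linarith) hmpos.le
    rw [hΨ]
    simp only
    linarith
  -- the sum over the places
  set γ₂ : ℝ := γ + (Real.log m + a * Real.log 2) with hγ₂def
  have hγ₂ : 0 ≤ γ₂ := by
    have h1 : (0 : ℝ) ≤ Real.log m := Real.log_nonneg (by exact_mod_cast hm)
    have h2 : (0 : ℝ) ≤ (a : ℝ) * Real.log 2 :=
      mul_nonneg (Nat.cast_nonneg a) (Real.log_nonneg (by norm_num))
    linarith
  have hS := mw_gkl_S_le_bound (K := ↥K') hγ₂ hcp hfin (mw_gkl_fin_smul (1 / (m : ℝ)) fΨ)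
    (fun w hw => by
      have := hloc w γ (Real.log m + a * Real.log 2) (Or.inl ⟨hw, rfl⟩) (Or.inl ⟨hw, rfl⟩)
      rw [one_div, inv_mul_le_iff₀ hmpos]
      exact this)
    (fun w hw p hp hp1 => by
      have := hloc w (-(cp p * Real.log (w (p : ↥K')))) (-((fun _ : ℕ => (0 : ℝ)) p *
        Real.log (w (p : ↥K')))) (Or.inr ⟨hw, p, hp, hp1, rfl⟩) (Or.inr ⟨hw, p, hp, hp1, rfl⟩)
      rw [one_div, inv_mul_le_iff₀ hmpos]
      simpa using this)
  rw [mw_gkl_S_smul, sΨ] at hS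
  -- the algebra
  have h4 : 1 / (m : ℝ) * -(d * (P1 - P2 + (m : ℝ) * mw_ht BM))
      = d * (-(P1 - P2 + (m : ℝ) * mw_ht BM) / (m : ℝ)) := by
    field_simp
  rw [h4] at hS
  have h5 := le_of_mul_le_mul_left hS hd
  rw [div_le_iff₀ hmpos] at h5
  rw [hγ₂def] at h5
  linarith

end Sum

end Fermat.Agent.MW
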